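import Fermat.Agent.ZRec.Trace

/-!
# Old/new recursion for degeneracy systems
-/

set_option autoImplicit false

namespace Fermat.Agent.ZRec

open LinearMap Module

/-- a degeneracy system -/
structure DegSys (k : Type*) [Field k] (V : Finset ℕ → Type*) [∀ s, AddCommGroup (V s)]
    [∀ s, Module k (V s)] (S : Finset ℕ) where
  /-- Atkin–Lehner involutions -/
  w : ∀ s, ℕ → V s →ₗ[k] V s
  /-- degeneracy maps up -/
  I : ∀ s t, V s →ₗ[k] V t
  /-- degeneracy maps down -/
  J : ∀ s t, V t →ₗ[k] V s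
  /-- composite involutions -/
  W : ∀ s, Finset ℕ → V s →ₗ[k] V s
  w_w : ∀ s ⊆ S, ∀ c ∈ s, ∀ x, w s c (w s c x) = x
  w_comm : ∀ s ⊆ S, ∀ c ∈ s, ∀ d ∈ s, ∀ x, w s c (w s d x) = w s d (w s c x)
  I_w : ∀ s ⊆ S, ∀ a ∈ S, a ∉ s → ∀ c ∈ s, ∀ x,
    I s (insert a s) (w s c x) = w (insert a s) c (I s (insert a s) x)
  J_w : ∀ s ⊆ S, ∀ a ∈ S, a ∉ s → ∀ c ∈ s, ∀ x,
    J s (insert a s) (w (insert a s) c x) = w s c (J s (insert a s) x)
  J_I : ∀ s ⊆ S, ∀ a ∈ S, a ∉ s → ∀ x,
    J s (insert a s) (I s (insert a s) x) = ((a : k) + 1) • x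
  I_I : ∀ s ⊆ S, ∀ a ∈ S, ∀ b ∈ S, a ∉ s → b ∉ s → a ≠ b → ∀ x,
    I (insert a s) (insert b (insert a s)) (I s (insert a s) x) =
      I (insert b s) (insert b (insert a s)) (I s (insert b s) x)
  J_J : ∀ s ⊆ S, ∀ a ∈ S, ∀ b ∈ S, a ∉ s → b ∉ s → a ≠ b → ∀ x,
    J s (insert a s) (J (insert a s) (insert b (insert a s)) x) =
      J s (insert b s) (J (insert b s) (insert b (insert a s)) x)
  J_I' : ∀ s ⊆ S, ∀ a ∈ S, ∀ b ∈ S, a ∉ s → b ∉ s → a ≠ b → ∀ x,
    J (insert a s) (insert b (insert a s)) (I (insert b s) (insert b (insert a s)) x) =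
      I s (insert a s) (J s (insert b s) x)
  T_inj : ∀ s ⊆ S, ∀ a ∈ S, a ∉ s → ∀ x,
    J s (insert a s) (w (insert a s) a (I s (insert a s)
      (J s (insert a s) (w (insert a s) a (I s (insert a s) x))))) = ((a : k) + 1) ^ 2 • x → x = 0
  W_empty : ∀ s ⊆ S, W s ∅ = LinearMap.id
  W_insert : ∀ s ⊆ S, ∀ D ⊆ s, ∀ c ∈ s, c ∉ D → W s (insert c D) = w s c ∘ₗ W s D

namespace DegSys

variable {k : Type*} [Field k] {V : Finset ℕ → Type*} [∀ s, AddCommGroup (V s)]
  [∀ s, Module k (V s)] {S : Finset ℕ} (D : DegSys k V S)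

/-- down from `s` to `s - c` -/
abbrev dn (c : ℕ) (s : Finset ℕ) : V s →ₗ[k] V (s.erase c) := D.J (s.erase c) s

/-- up from `s - c` to `s` -/
abbrev up (c : ℕ) (s : Finset ℕ) : V (s.erase c) →ₗ[k] V s := D.I (s.erase c) s

variable {D}

lemma up_w {s : Finset ℕ} (hs : s ⊆ S) {q : ℕ} (hq : q ∈ s) {c : ℕ} (hc : c ∈ s.erase q)
    (x : V (s.erase q)) : D.up q s (D.w (s.erase q) c x) = D.w s c (D.up q s x) := by
  have key : ∀ t, t = insert q (s.erase q) → ∀ x, D.I (s.erase q) t (D.w (s.erase q) c x) =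
      D.w t c (D.I (s.erase q) t x) := by
    rintro _ rfl x
    exact D.I_w _ ((Finset.erase_subset _ _).trans hs) q (hs hq) (Finset.notMem_erase _ _) c hc x
  exact key s (Finset.insert_erase hq).symm x

lemma dn_w {s : Finset ℕ} (hs : s ⊆ S) {q : ℕ} (hq : q ∈ s) {c : ℕ} (hc : c ∈ s.erase q)
    (x : V s) : D.dn q s (D.w s c x) = D.w (s.erase q) c (D.dn q s x) := by
  have key : ∀ t, t = insert q (s.erase q) → ∀ x, D.J (s.erase q) t (D.w t c x) =
      D.w (s.erase q) c (D.J (s.erase q) t x) := by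
    rintro _ rfl x
    exact D.J_w _ ((Finset.erase_subset _ _).trans hs) q (hs hq) (Finset.notMem_erase _ _) c hc x
  exact key s (Finset.insert_erase hq).symm x

lemma dn_up {s : Finset ℕ} (hs : s ⊆ S) {q : ℕ} (hq : q ∈ s) (x : V (s.erase q)) :
    D.dn q s (D.up q s x) = ((q : k) + 1) • x := by
  have key : ∀ t, t = insert q (s.erase q) → ∀ x, D.J (s.erase q) t (D.I (s.erase q) t x) =
      ((q : k) + 1) • x := by
    rintro _ rfl x
    exact D.J_I _ ((Finset.erase_subset _ _).trans hs) q (hs hq) (Finset.notMem_erase _ _) x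
  exact key s (Finset.insert_erase hq).symm x

lemma T_inj' {s : Finset ℕ} (hs : s ⊆ S) {q : ℕ} (hq : q ∈ s) (x : V (s.erase q))
    (h : D.dn q s (D.w s q (D.up q s (D.dn q s (D.w s q (D.up q s x))))) =
      ((q : k) + 1) ^ 2 • x) : x = 0 := by
  have key : ∀ t, t = insert q (s.erase q) → ∀ x,
      D.J (s.erase q) t (D.w t q (D.I (s.erase q) t (D.J (s.erase q) t (D.w t q
        (D.I (s.erase q) t x))))) = ((q : k) + 1) ^ 2 • x → x = 0 := by
    rintro _ rfl x
    exact D.T_inj _ ((Finset.erase_subset _ _).trans hs) q (hs hq) (Finset.notMem_erase _ _) x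
  exact key s (Finset.insert_erase hq).symm x h

lemma dn_dn {s : Finset ℕ} (hs : s ⊆ S) {q c : ℕ} (hq : q ∈ s) (hc : c ∈ s) (hqc : q ≠ c)
    (x : V s) : D.J ((s.erase q).erase c) (s.erase q) (D.dn q s x) =
      D.J ((s.erase q).erase c) (s.erase c) (D.dn c s x) := by
  have key : ∀ s1 s2 t r, s1 = insert c r → s2 = insert q r → t = insert q (insert c r) →
      r ⊆ S → c ∉ r → q ∉ r → ∀ x, D.J r s1 (D.J s1 t x) = D.J r s2 (D.J s2 t x) := by
    rintro _ _ _ r rfl rfl rfl hr h1 h2 x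
    exact D.J_J r hr c (hs hc) q (hs hq) h1 h2 hqc.symm x
  have h1 : s.erase q = insert c ((s.erase q).erase c) :=
    (Finset.insert_erase (Finset.mem_erase.2 ⟨hqc.symm, hc⟩)).symm
  have h2 : s.erase c = insert q ((s.erase q).erase c) := by
    rw [Finset.erase_right_comm, Finset.insert_erase (Finset.mem_erase.2 ⟨hqc, hq⟩)]
  have h3 : s = insert q (insert c ((s.erase q).erase c)) := by
    rw [← h1, Finset.insert_erase hq]
  exact key _ _ _ _ h1 h2 h3 (((Finset.erase_subset _ _).trans (Finset.erase_subset _ _)).trans hs)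
    (Finset.notMem_erase _ _) (fun h => Finset.notMem_erase q s (Finset.mem_of_mem_erase h)) x

lemma dn_up' {s : Finset ℕ} (hs : s ⊆ S) {q c : ℕ} (hq : q ∈ s) (hc : c ∈ s) (hqc : q ≠ c)
    (y : V (s.erase q)) : D.dn c s (D.up q s y) =
      D.I ((s.erase q).erase c) (s.erase c) (D.J ((s.erase q).erase c) (s.erase q) y) := by
  have key : ∀ s1 s2 t r, s1 = insert c r → s2 = insert q r → t = insert c (insert q r) →
      r ⊆ S → c ∉ r → q ∉ r → ∀ y, D.J s2 t (D.I s1 t y) = D.I r s2 (D.J r s1 y) := by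
    rintro _ _ _ r rfl rfl rfl hr h1 h2 y
    exact D.J_I' r hr q (hs hq) c (hs hc) h2 h1 hqc y
  have h1 : s.erase q = insert c ((s.erase q).erase c) :=
    (Finset.insert_erase (Finset.mem_erase.2 ⟨hqc.symm, hc⟩)).symm
  have h2 : s.erase c = insert q ((s.erase q).erase c) := by
    rw [Finset.erase_right_comm, Finset.insert_erase (Finset.mem_erase.2 ⟨hqc, hq⟩)]
  have h3 : s = insert c (insert q ((s.erase q).erase c)) := by
    rw [← h2, Finset.insert_erase hc]
  exact key _ _ _ _ h1 h2 h3 (((Finset.erase_subset _ _).trans (Finset.erase_subset _ _)).trans hs)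
    (Finset.notMem_erase _ _) (fun h => Finset.notMem_erase q s (Finset.mem_of_mem_erase h)) y

/-! ### properties of `W` -/

lemma W_w {s : Finset ℕ} (hs : s ⊆ S) {c : ℕ} (hc : c ∈ s) {E : Finset ℕ} (hE : E ⊆ s) (x : V s) :
    D.w s c (D.W s E x) = D.W s E (D.w s c x) := by
  induction E using Finset.induction_on generalizing x with
  | empty => rw [D.W_empty s hs]; rfl
  | insert d E hd ih =>
    rw [D.W_insert s hs E ((Finset.subset_insert _ _).trans hE) d (hE (Finset.mem_insert_self _ _))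
      hd, LinearMap.comp_apply, LinearMap.comp_apply,
      D.w_comm s hs c hc d (hE (Finset.mem_insert_self _ _)),
      ih ((Finset.subset_insert _ _).trans hE)]

lemma W_W {s : Finset ℕ} (hs : s ⊆ S) {E : Finset ℕ} (hE : E ⊆ s) (x : V s) :
    D.W s E (D.W s E x) = x := by
  induction E using Finset.induction_on generalizing x with
  | empty => rw [D.W_empty s hs]; rfl
  | insert d E hd ih =>
    have hE' := (Finset.subset_insert _ _).trans hE
    have hds := hE (Finset.mem_insert_self _ _)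
    rw [D.W_insert s hs E hE' d hds hd, LinearMap.comp_apply, LinearMap.comp_apply,
      ← W_w hs hds hE', ih hE', D.w_w s hs d hds]

lemma dn_W {s : Finset ℕ} (hs : s ⊆ S) {q : ℕ} (hq : q ∈ s) {E : Finset ℕ} (hE : E ⊆ s.erase q)
    (x : V s) : D.dn q s (D.W s E x) = D.W (s.erase q) E (D.dn q s x) := by
  have hs' : s.erase q ⊆ S := (Finset.erase_subset _ _).trans hs
  induction E using Finset.induction_on generalizing x with
  | empty => rw [D.W_empty s hs, D.W_empty _ hs']; rfl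
  | insert d E hd ih =>
    have hE' := (Finset.subset_insert _ _).trans hE
    have hds := hE (Finset.mem_insert_self _ _)
    rw [D.W_insert s hs E (hE'.trans (Finset.erase_subset _ _)) d (Finset.mem_of_mem_erase hds) hd,
      D.W_insert _ hs' E hE' d hds hd, LinearMap.comp_apply, LinearMap.comp_apply,
      dn_w hs hq hds, ih hE']

lemma up_W {s : Finset ℕ} (hs : s ⊆ S) {q : ℕ} (hq : q ∈ s) {E : Finset ℕ} (hE : E ⊆ s.erase q)
    (x : V (s.erase q)) : D.W s E (D.up q s x) = D.up q s (D.W (s.erase q) E x) := by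
  have hs' : s.erase q ⊆ S := (Finset.erase_subset _ _).trans hs
  induction E using Finset.induction_on generalizing x with
  | empty => rw [D.W_empty s hs, D.W_empty _ hs']; rfl
  | insert d E hd ih =>
    have hE' := (Finset.subset_insert _ _).trans hE
    have hds := hE (Finset.mem_insert_self _ _)
    rw [D.W_insert s hs E (hE'.trans (Finset.erase_subset _ _)) d (Finset.mem_of_mem_erase hds) hd,
      D.W_insert _ hs' E hE' d hds hd, LinearMap.comp_apply, LinearMap.comp_apply,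
      up_w hs hq hds, ih hE']

/-! ### the subspaces -/

variable (D) in
/-- the subspace of `V s` with sign `-1` at `A` and new at `B` -/
def U (s A B : Finset ℕ) : Submodule k (V s) where
  carrier := {x | (∀ q ∈ A, D.w s q x = -x) ∧ ∀ c ∈ B, D.dn c s x = 0 ∧ D.dn c s (D.w s c x) = 0}
  add_mem' := by
    rintro a b ⟨h1, h2⟩ ⟨h3, h4⟩
    refine ⟨fun q hq => ?_, fun c hc => ⟨?_, ?_⟩⟩
    · rw [map_add, h1 q hq, h3 q hq, neg_add]
    · rw [map_add, (h2 c hc).1, (h4 c hc).1, add_zero]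
    · rw [map_add, map_add, (h2 c hc).2, (h4 c hc).2, add_zero]
  zero_mem' := ⟨fun q _ => by rw [map_zero, neg_zero], fun c _ => ⟨map_zero _, by
    rw [map_zero, map_zero]⟩⟩
  smul_mem' := by
    rintro r a ⟨h1, h2⟩
    refine ⟨fun q hq => ?_, fun c hc => ⟨?_, ?_⟩⟩
    · rw [map_smul, h1 q hq, smul_neg]
    · rw [map_smul, (h2 c hc).1, smul_zero]
    · rw [map_smul, map_smul, (h2 c hc).2, smul_zero]

lemma mem_U {s A B : Finset ℕ} {x : V s} : x ∈ D.U s A B ↔ (∀ q ∈ A, D.w s q x = -x) ∧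
    ∀ c ∈ B, D.dn c s x = 0 ∧ D.dn c s (D.w s c x) = 0 := Iff.rfl

lemma w_mem {s A B : Finset ℕ} (hs : s ⊆ S) (hA : A ⊆ s) (hB : B ⊆ s) {c : ℕ} (hc : c ∈ s) {x : V s}
    (hx : x ∈ D.U s A B) : D.w s c x ∈ D.U s A B := by
  refine ⟨fun q hq => ?_, fun d hd => ?_⟩
  · rw [D.w_comm s hs q (hA hq) c hc, hx.1 q hq, map_neg]
  · by_cases hdc : d = c
    · subst hdc
      rw [D.w_w s hs d hc]
      exact ⟨(hx.2 d hd).2, (hx.2 d hd).1⟩
    · have h1 : c ∈ s.erase d := Finset.mem_erase.2 ⟨Ne.symm hdc, hc⟩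
      rw [D.w_comm s hs d (hB hd) c hc, dn_w hs (hB hd) h1, dn_w hs (hB hd) h1, (hx.2 d hd).1,
        (hx.2 d hd).2, map_zero]
      exact ⟨rfl, rfl⟩

lemma W_mem {s A B : Finset ℕ} (hs : s ⊆ S) (hA : A ⊆ s) (hB : B ⊆ s) {E : Finset ℕ} (hE : E ⊆ s)
    (x : V s) (hx : x ∈ D.U s A B) : D.W s E x ∈ D.U s A B := by
  induction E using Finset.induction_on generalizing x with
  | empty => rw [D.W_empty s hs]; exact hx
  | insert d E hd ih =>
    rw [D.W_insert s hs E ((Finset.subset_insert _ _).trans hE) d (hE (Finset.mem_insert_self _ _))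
      hd]
    exact w_mem hs hA hB (hE (Finset.mem_insert_self _ _))
      (ih ((Finset.subset_insert _ _).trans hE) x hx)

lemma dn_mem {s A B : Finset ℕ} (hs : s ⊆ S) {q : ℕ} (hq : q ∈ s) (hA : A ⊆ s.erase q)
    (hB : B ⊆ s.erase q) {x : V s} (hx : x ∈ D.U s A B) : D.dn q s x ∈ D.U (s.erase q) A B := by
  refine ⟨fun a ha => ?_, fun c hc => ?_⟩
  · rw [← dn_w hs hq (hA ha), hx.1 a ha, map_neg]
  · have hcs := Finset.mem_of_mem_erase (hB hc)
    have hcq : q ≠ c := fun h => Finset.notMem_erase q s (h ▸ hB hc)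
    have h1 := dn_dn (D := D) hs hq hcs hcq x
    have h2 := dn_dn (D := D) hs hq hcs hcq (D.w s c x)
    rw [(hx.2 c hc).1, map_zero] at h1
    rw [(hx.2 c hc).2, map_zero, dn_w hs hq (hB hc)] at h2
    exact ⟨h1, h2⟩

lemma up_mem {s A B : Finset ℕ} (hs : s ⊆ S) {q : ℕ} (hq : q ∈ s) (hA : A ⊆ s.erase q)
    (hB : B ⊆ s.erase q) {y : V (s.erase q)} (hy : y ∈ D.U (s.erase q) A B) :
    D.up q s y ∈ D.U s A B := by
  refine ⟨fun a ha => ?_, fun c hc => ?_⟩
  · rw [← up_w hs hq (hA ha), hy.1 a ha, map_neg]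
  · have hcs := Finset.mem_of_mem_erase (hB hc)
    have hcq : q ≠ c := fun h => Finset.notMem_erase q s (h ▸ hB hc)
    have h1 := dn_up' (D := D) hs hq hcs hcq y
    have h2 := dn_up' (D := D) hs hq hcs hcq (D.w (s.erase q) c y)
    have h3 : D.J ((s.erase q).erase c) (s.erase q) y = 0 := (hy.2 c hc).1
    have h4 : D.J ((s.erase q).erase c) (s.erase q) (D.w (s.erase q) c y) = 0 := (hy.2 c hc).2
    rw [h3, map_zero] at h1
    rw [h4, map_zero, up_w hs hq (hB hc)] at h2
    exact ⟨h1, h2⟩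

/-! ### traces -/

open Classical in
variable (D) in
/-- trace of `W s E` on `U s A B` -/
noncomputable def tt (s A B E : Finset ℕ) : k :=
  if h : ∀ x ∈ D.U s A B, D.W s E x ∈ D.U s A B then
    trace k (D.U s A B) ((D.W s E).restrict h) else 0

lemma tt_eq {s A B E : Finset ℕ} (h : ∀ x ∈ D.U s A B, D.W s E x ∈ D.U s A B) :
    D.tt s A B E = trace k (D.U s A B) ((D.W s E).restrict h) := dif_pos h

variable [CharZero k] [∀ s, FiniteDimensional k (V s)]

lemma tt_step1 {s A E : Finset ℕ} (hs : s ⊆ S) {q : ℕ} (hq : q ∈ s) (hA : A ⊆ s.erase q)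
    (hE : E ⊆ s.erase q) :
    D.tt s (insert q A) (insert q A) E =
      (1 / 2 : k) * (D.tt s A A E - D.tt s A A (insert q E)) - D.tt (s.erase q) A A E := by
  have hs' : s.erase q ⊆ S := (Finset.erase_subset _ _).trans hs
  have hAs : A ⊆ s := hA.trans (Finset.erase_subset _ _)
  have hEs : E ⊆ s := hE.trans (Finset.erase_subset _ _)
  have hqAs : insert q A ⊆ s := Finset.insert_subset hq hAs
  have hqEs : insert q E ⊆ s := Finset.insert_subset hq hEs
  have hqE : q ∉ E := fun h => Finset.notMem_erase q s (hE h)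
  have hqA : q ∉ A := fun h => Finset.notMem_erase q s (hA h)
  have m1 : ∀ x ∈ D.U s A A, D.W s E x ∈ D.U s A A := W_mem hs hAs hAs hEs
  have m2 : ∀ x ∈ D.U s A A, D.W s (insert q E) x ∈ D.U s A A := W_mem hs hAs hAs hqEs
  have m3 : ∀ x ∈ D.U (s.erase q) A A, D.W (s.erase q) E x ∈ D.U (s.erase q) A A :=
    W_mem hs' hA hA hE
  have m4 : ∀ x ∈ D.U s (insert q A) (insert q A), D.W s E x ∈ D.U s (insert q A) (insert q A) :=
    W_mem hs hqAs hqAs hEs
  have m5 : ∀ x ∈ D.U s A A, D.w s q x ∈ D.U s A A := fun x hx => w_mem hs hAs hAs hq hx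
  have m6 : ∀ x ∈ D.U s A A, D.dn q s x ∈ D.U (s.erase q) A A := fun x hx =>
    dn_mem hs hq hA hA hx
  have m7 : ∀ x ∈ D.U (s.erase q) A A, D.up q s x ∈ D.U s A A := fun x hx =>
    up_mem hs hq hA hA hx
  rw [tt_eq m1, tt_eq m2, tt_eq m3, tt_eq m4]
  let Zm : Submodule k (D.U s A A) := (D.U s (insert q A) (insert q A)).comap (D.U s A A).subtype
  have hZm : ∀ x : D.U s A A, x ∈ Zm ↔ ((D.dn q s).restrict m6) x = 0 ∧
      ((D.w s q).restrict m5) x = -x := by
    intro x
    rw [Submodule.mem_comap]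
    constructor
    · intro h
      have h' : (x : V s) ∈ D.U s (insert q A) (insert q A) := h
      exact ⟨Subtype.ext (h'.2 q (Finset.mem_insert_self _ _)).1,
        Subtype.ext (h'.1 q (Finset.mem_insert_self _ _))⟩
    · rintro ⟨h1, h2⟩
      have h1' : D.dn q s (x : V s) = 0 := congrArg Subtype.val h1
      have h2' : D.w s q (x : V s) = -(x : V s) := congrArg Subtype.val h2
      show (x : V s) ∈ D.U s (insert q A) (insert q A)
      refine ⟨fun a ha => ?_, fun c hc => ?_⟩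
      · rcases Finset.mem_insert.1 ha with rfl | ha
        · exact h2'
        · exact x.2.1 a ha
      · rcases Finset.mem_insert.1 hc with rfl | hc
        · refine ⟨h1', ?_⟩
          rw [h2', map_neg, h1', neg_zero]
        · exact x.2.2 c hc
  have hFZ : ∀ x ∈ Zm, ((D.W s E).restrict m1) x ∈ Zm := fun x hx => m4 _ hx
  have h := step_minus (k := k) (X := D.U s A A) (Y := D.U (s.erase q) A A)
    ((D.up q s).restrict m7) ((D.dn q s).restrict m6) ((D.w s q).restrict m5)
    ((D.W s E).restrict m1) ((D.W (s.erase q) E).restrict m3) ((q : k) + 1)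
    (fun x => Subtype.ext (D.w_w s hs q hq x))
    (fun x => Subtype.ext (W_w hs hq hEs (x : V s)))
    (fun x => Subtype.ext (dn_W hs hq hE (x : V s)))
    (fun x => Subtype.ext (up_W hs hq hE (x : V (s.erase q))))
    (fun x => Subtype.ext (dn_up hs hq (x : V (s.erase q))))
    (fun x hx => Subtype.ext (T_inj' hs hq (x : V (s.erase q)) (congrArg Subtype.val hx)))
    Zm hZm hFZ
  have h2 := trace_nested (D.U s A A) Zm (D.U s (insert q A) (insert q A)) (fun x => by
    constructor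
    · intro hx
      exact ⟨⟨fun a ha => hx.1 a (Finset.mem_insert_of_mem ha),
        fun c hc => hx.2 c (Finset.mem_insert_of_mem hc)⟩, hx⟩
    · rintro ⟨_, h⟩
      exact h) (D.W s E) m1 hFZ m4
  rw [← h2, h]
  have h3 : ((D.w s q).restrict m5) ∘ₗ ((D.W s E).restrict m1) =
      (D.W s (insert q E)).restrict m2 := by
    ext x
    show D.w s q (D.W s E (x : V s)) = D.W s (insert q E) (x : V s)
    rw [D.W_insert s hs E hEs q hq hqE]
    rfl
  rw [h3]

lemma tt_step2 {s A B E : Finset ℕ} (hs : s ⊆ S) {q : ℕ} (hq : q ∈ s) (hA : A ⊆ s.erase q)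
    (hB : B ⊆ s.erase q) (hE : E ⊆ s.erase q) :
    D.tt s A (insert q B) (insert q E) = D.tt s A B (insert q E) := by
  have hs' : s.erase q ⊆ S := (Finset.erase_subset _ _).trans hs
  have hAs : A ⊆ s := hA.trans (Finset.erase_subset _ _)
  have hBs : B ⊆ s := hB.trans (Finset.erase_subset _ _)
  have hEs : E ⊆ s := hE.trans (Finset.erase_subset _ _)
  have hqBs : insert q B ⊆ s := Finset.insert_subset hq hBs
  have hqEs : insert q E ⊆ s := Finset.insert_subset hq hEs
  have hqE : q ∉ E := fun h => Finset.notMem_erase q s (hE h)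
  have m1 : ∀ x ∈ D.U s A B, D.W s E x ∈ D.U s A B := W_mem hs hAs hBs hEs
  have m2 : ∀ x ∈ D.U s A B, D.W s (insert q E) x ∈ D.U s A B := W_mem hs hAs hBs hqEs
  have m3 : ∀ x ∈ D.U (s.erase q) A B, D.W (s.erase q) E x ∈ D.U (s.erase q) A B :=
    W_mem hs' hA hB hE
  have m4 : ∀ x ∈ D.U s A (insert q B), D.W s (insert q E) x ∈ D.U s A (insert q B) :=
    W_mem hs hAs hqBs hqEs
  have m5 : ∀ x ∈ D.U s A B, D.w s q x ∈ D.U s A B := fun x hx => w_mem hs hAs hBs hq hx
  have m6 : ∀ x ∈ D.U s A B, D.dn q s x ∈ D.U (s.erase q) A B := fun x hx =>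
    dn_mem hs hq hA hB hx
  have m7 : ∀ x ∈ D.U (s.erase q) A B, D.up q s x ∈ D.U s A B := fun x hx =>
    up_mem hs hq hA hB hx
  rw [tt_eq m2, tt_eq m4]
  have h3 : ((D.w s q).restrict m5) ∘ₗ ((D.W s E).restrict m1) =
      (D.W s (insert q E)).restrict m2 := by
    ext x
    show D.w s q (D.W s E (x : V s)) = D.W s (insert q E) (x : V s)
    rw [D.W_insert s hs E hEs q hq hqE]
    rfl
  let Z : Submodule k (D.U s A B) := (D.U s A (insert q B)).comap (D.U s A B).subtype
  have hZ : ∀ x : D.U s A B, x ∈ Z ↔ ((D.dn q s).restrict m6) x = 0 ∧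
      ((D.dn q s).restrict m6) (((D.w s q).restrict m5) x) = 0 := by
    intro x
    rw [Submodule.mem_comap]
    constructor
    · intro h
      have h' : (x : V s) ∈ D.U s A (insert q B) := h
      exact ⟨Subtype.ext (h'.2 q (Finset.mem_insert_self _ _)).1,
        Subtype.ext (h'.2 q (Finset.mem_insert_self _ _)).2⟩
    · rintro ⟨h1, h2⟩
      have h1' : D.dn q s (x : V s) = 0 := congrArg Subtype.val h1
      have h2' : D.dn q s (D.w s q (x : V s)) = 0 := congrArg Subtype.val h2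
      show (x : V s) ∈ D.U s A (insert q B)
      refine ⟨x.2.1, fun c hc => ?_⟩
      rcases Finset.mem_insert.1 hc with rfl | hc
      · exact ⟨h1', h2'⟩
      · exact x.2.2 c hc
  have hFZ : ∀ x ∈ Z, (((D.w s q).restrict m5) ∘ₗ ((D.W s E).restrict m1)) x ∈ Z := by
    intro x hx
    rw [h3]
    exact m4 _ hx
  have h := step_new (k := k) (X := D.U s A B) (Y := D.U (s.erase q) A B)
    ((D.up q s).restrict m7) ((D.dn q s).restrict m6) ((D.w s q).restrict m5)
    ((D.W s E).restrict m1) ((D.W (s.erase q) E).restrict m3) ((q : k) + 1)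
    (fun x => Subtype.ext (D.w_w s hs q hq x))
    (fun x => Subtype.ext (W_w hs hq hEs (x : V s)))
    (fun x => Subtype.ext (dn_W hs hq hE (x : V s)))
    (fun x => Subtype.ext (up_W hs hq hE (x : V (s.erase q))))
    (fun x => Subtype.ext (dn_up hs hq (x : V (s.erase q))))
    (fun x hx => Subtype.ext (T_inj' hs hq (x : V (s.erase q)) (congrArg Subtype.val hx)))
    Z hZ hFZ
  have hFZ' : ∀ x ∈ Z, ((D.W s (insert q E)).restrict m2) x ∈ Z := fun x hx => m4 _ hx
  have h2 := trace_nested (D.U s A B) Z (D.U s A (insert q B)) (fun x => by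
    constructor
    · intro hx
      exact ⟨⟨hx.1, fun c hc => hx.2 c (Finset.mem_insert_of_mem hc)⟩, hx⟩
    · rintro ⟨_, h⟩
      exact h) (D.W s (insert q E)) m2 hFZ' m4
  rw [← h2]
  simp only [h3] at h
  exact h

omit [CharZero k] [∀ s, FiniteDimensional k (V s)] in
lemma tt_empty {s E : Finset ℕ} (hs : s ⊆ S) (hE : E ⊆ s) :
    D.tt s ∅ ∅ E = trace k (V s) (D.W s E) := by
  have hU : ∀ x : V s, x ∈ D.U s ∅ ∅ := fun x => ⟨fun q hq => absurd hq (Finset.notMem_empty q),
    fun q hq => absurd hq (Finset.notMem_empty q)⟩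
  rw [tt_eq (fun x _ => hU _)]
  let e : D.U s ∅ ∅ ≃ₗ[k] V s := LinearEquiv.ofBijective (D.U s ∅ ∅).subtype
    ⟨Subtype.val_injective, fun x => ⟨⟨x, hU x⟩, rfl⟩⟩
  exact trace_congr e _ _ (fun _ => rfl)

variable {N0 : Finset ℕ} (hN0 : N0 ⊆ S)
  (h0 : ∀ s E, N0 ⊆ E → E ⊆ s → s ⊆ S → s ≠ N0 → trace k (V s) (D.W s E) = 0)
  {t0 : ℤ} (ht0 : trace k (V N0) (D.W N0 N0) = (t0 : k))

include h0 ht0 in
lemma tt_formula (A : Finset ℕ) (hA : A ⊆ S \ N0) : ∀ s E : Finset ℕ, A ⊆ s → s ⊆ S → N0 ⊆ E →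
    E ⊆ s → Disjoint A E → D.tt s A A E = if s = N0 ∪ A then (-1) ^ A.card * (t0 : k) else 0 := by
  induction A using Finset.induction_on with
  | empty =>
    intro s E _ hs hNE hEs _
    rw [tt_empty hs hEs, Finset.union_empty, Finset.card_empty, pow_zero, one_mul]
    split_ifs with h
    · subst h
      obtain rfl : E = s := Finset.Subset.antisymm hEs hNE
      exact ht0
    · exact h0 s E hNE hEs hs h
  | insert q A hqA ih =>
    intro s E hAs hs hNE hEs hdisj
    have hA' : A ⊆ S \ N0 := (Finset.subset_insert _ _).trans hA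
    have hqS := Finset.mem_sdiff.1 (hA (Finset.mem_insert_self q A))
    have hqs : q ∈ s := hAs (Finset.mem_insert_self _ _)
    have hqE : q ∉ E := fun h => Finset.disjoint_left.1 hdisj (Finset.mem_insert_self _ _) h
    have hAs' : A ⊆ s.erase q := fun a ha => Finset.mem_erase.2
      ⟨fun h => hqA (h ▸ ha), hAs (Finset.mem_insert_of_mem ha)⟩
    have hEs' : E ⊆ s.erase q := fun a ha => Finset.mem_erase.2 ⟨fun h => hqE (h ▸ ha), hEs ha⟩
    have hdisj' : Disjoint A E := Finset.disjoint_of_subset_left (Finset.subset_insert _ _) hdisj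
    have hqNA : q ∉ N0 ∪ A := by
      rw [Finset.mem_union]
      rintro (h | h)
      · exact hqS.2 h
      · exact hqA h
    have hne : s ≠ N0 ∪ A := fun h => hqNA (h ▸ hqs)
    rw [tt_step1 hs hqs hAs' hEs',
      ih hA' s E (hAs'.trans (Finset.erase_subset _ _)) hs hNE hEs hdisj',
      ih hA' s (insert q E) (hAs'.trans (Finset.erase_subset _ _)) hs
        (hNE.trans (Finset.subset_insert _ _)) (Finset.insert_subset hqs hEs)
        (Finset.disjoint_insert_right.2 ⟨hqA, hdisj'⟩),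
      ih hA' (s.erase q) E hAs' ((Finset.erase_subset _ _).trans hs) hNE hEs' hdisj',
      if_neg hne, sub_zero, mul_zero, zero_sub]
    have hiff : s.erase q = N0 ∪ A ↔ s = N0 ∪ insert q A := by
      rw [Finset.union_insert]
      constructor
      · intro h
        rw [← h, Finset.insert_erase hqs]
      · intro h
        rw [h, Finset.erase_insert hqNA]
    by_cases hc : s.erase q = N0 ∪ A
    · rw [if_pos hc, if_pos (hiff.1 hc), Finset.card_insert_of_notMem hqA, pow_succ]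
      ring
    · rw [if_neg hc, if_neg (fun h => hc (hiff.2 h)), neg_zero]

include hN0 h0 ht0 in
lemma tt_final (B : Finset ℕ) (hB : B ⊆ N0) :
    D.tt S (S \ N0) (S \ N0 ∪ B) N0 = (-1) ^ (S \ N0).card * (t0 : k) := by
  induction B using Finset.induction_on with
  | empty =>
    rw [Finset.union_empty, tt_formula h0 ht0 (S \ N0) (Finset.Subset.refl _) S N0
      Finset.sdiff_subset (Finset.Subset.refl _) (Finset.Subset.refl _) hN0
      Finset.sdiff_disjoint, if_pos]
    rw [Finset.union_sdiff_of_subset hN0]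
  | insert p B hpB ih =>
    have hpN : p ∈ N0 := hB (Finset.mem_insert_self _ _)
    have h1 := tt_step2 (D := D) (s := S) (A := S \ N0) (B := S \ N0 ∪ B) (E := N0.erase p)
      (Finset.Subset.refl S) (hN0 hpN) (by
        intro a ha
        exact Finset.mem_erase.2 ⟨fun h => (Finset.mem_sdiff.1 ha).2 (h ▸ hpN),
          (Finset.mem_sdiff.1 ha).1⟩) (by
        intro a ha
        rcases Finset.mem_union.1 ha with ha | ha
        · exact Finset.mem_erase.2 ⟨fun h => (Finset.mem_sdiff.1 ha).2 (h ▸ hpN),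
            (Finset.mem_sdiff.1 ha).1⟩
        · exact Finset.mem_erase.2 ⟨fun h => hpB (h ▸ ha), hN0 (hB (Finset.mem_insert_of_mem ha))⟩)
        (Finset.erase_subset_erase _ hN0)
    rw [Finset.insert_erase hpN] at h1
    rw [Finset.union_insert, h1, ih ((Finset.subset_insert _ _).trans hB)]

variable (D N0) in
/-- the new subspace with signs `-1` at `S - N0` -/
def New : Submodule k (V S) where
  carrier := {x | (∀ a ∈ S, D.J (S.erase a) S x = 0 ∧ D.J (S.erase a) S (D.w S a x) = 0) ∧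
    ∀ q ∈ S \ N0, D.w S q x = -x}
  add_mem' := by
    rintro a b ⟨h2, h1⟩ ⟨h4, h3⟩
    refine ⟨fun c hc => ⟨?_, ?_⟩, fun q hq => ?_⟩
    · rw [map_add, (h2 c hc).1, (h4 c hc).1, add_zero]
    · rw [map_add, map_add, (h2 c hc).2, (h4 c hc).2, add_zero]
    · rw [map_add, h1 q hq, h3 q hq, neg_add]
  zero_mem' := ⟨fun c _ => ⟨map_zero _, by rw [map_zero, map_zero]⟩,
    fun q _ => by rw [map_zero, neg_zero]⟩
  smul_mem' := by
    rintro r a ⟨h2, h1⟩
    refine ⟨fun c hc => ⟨?_, ?_⟩, fun q hq => ?_⟩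
    · rw [map_smul, (h2 c hc).1, smul_zero]
    · rw [map_smul, map_smul, (h2 c hc).2, smul_zero]
    · rw [map_smul, h1 q hq, smul_neg]

omit [CharZero k] [∀ s, FiniteDimensional k (V s)] in
lemma mem_New {x : V S} : x ∈ D.New N0 ↔
    (∀ a ∈ S, D.J (S.erase a) S x = 0 ∧ D.J (S.erase a) S (D.w S a x) = 0) ∧
    ∀ q ∈ S \ N0, D.w S q x = -x := Iff.rfl

include hN0 h0 ht0 in
/-- **the main theorem on degeneracy systems** -/
theorem abs_le_finrank_new : |t0| ≤ finrank k (D.New N0) := by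
  have hS : S \ N0 ∪ N0 = S := by rw [Finset.sdiff_union_of_subset hN0]
  have h1 := tt_final hN0 h0 ht0 N0 (Finset.Subset.refl _)
  rw [hS] at h1
  have m : ∀ x ∈ D.U S (S \ N0) S, D.W S N0 x ∈ D.U S (S \ N0) S :=
    W_mem (Finset.Subset.refl S) Finset.sdiff_subset (Finset.Subset.refl S) hN0
  rw [tt_eq m] at h1
  have hU : D.New N0 = D.U S (S \ N0) S := by
    ext x
    rw [mem_New, mem_U]
    exact and_comm
  rw [hU]
  have h2 := abs_trace_le (k := k) (X := D.U S (S \ N0) S) ((D.W S N0).restrict m)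
    (fun x => Subtype.ext (W_W (Finset.Subset.refl S) hN0 (x : V S)))
    ((-1) ^ (S \ N0).card * t0) (by rw [h1]; push_cast; rfl)
  rwa [abs_mul, abs_pow, abs_neg, abs_one, one_pow, one_mul] at h2

end DegSys

end Fermat.Agent.ZRec
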