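import Mathlib

/-!
# Trace formulas for degeneracy systems
-/

set_option autoImplicit false

namespace Fermat.Agent.ZRec

open LinearMap Module

section general

variable {k : Type*} [Field k] {X Y P : Type*} [AddCommGroup X] [Module k X]
  [FiniteDimensional k X] [AddCommGroup Y] [Module k Y] [FiniteDimensional k Y]
  [AddCommGroup P] [Module k P] [FiniteDimensional k P]

omit [FiniteDimensional k X] [FiniteDimensional k Y] in
lemma trace_congr (e : X ≃ₗ[k] Y) (G : X →ₗ[k] X) (G' : Y →ₗ[k] Y)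
    (h : ∀ x, e (G x) = G' (e x)) : trace k X G = trace k Y G' := by
  rw [← trace_conj' G e]
  congr 1
  ext y
  rw [LinearEquiv.conj_apply_apply, h, LinearEquiv.apply_symm_apply]

omit [FiniteDimensional k X] in
/-- traces on nested submodules -/
lemma trace_nested (p : Submodule k X) (q : Submodule k p) (r : Submodule k X)
    (hr : ∀ x, x ∈ r ↔ ∃ h : x ∈ p, (⟨x, h⟩ : p) ∈ q) [FiniteDimensional k q]
    [FiniteDimensional k r] (G : X →ₗ[k] X) (hp : ∀ x ∈ p, G x ∈ p)
    (hq : ∀ x ∈ q, (G.restrict hp) x ∈ q) (hr' : ∀ x ∈ r, G x ∈ r) :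
    trace k q ((G.restrict hp).restrict hq) = trace k r (G.restrict hr') := by
  let f : q →ₗ[k] r := (p.subtype.comp q.subtype).codRestrict r (fun x => (hr _).2
    ⟨x.1.2, x.2⟩)
  have hf : Function.Bijective f := by
    constructor
    · intro x y h
      have h1 : ((x : p) : X) = ((y : p) : X) := congrArg (fun z : r => (z : X)) h
      exact Subtype.ext (Subtype.ext h1)
    · rintro ⟨x, hx⟩
      obtain ⟨h1, h2⟩ := (hr x).1 hx
      exact ⟨⟨⟨x, h1⟩, h2⟩, rfl⟩
  exact trace_congr (LinearEquiv.ofBijective f hf) _ _ (fun _ => rfl)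

/-- splitting of the trace -/
lemma trace_split (Φ : P →ₗ[k] X) (Ψ : X →ₗ[k] P) (hinj : Function.Injective (Ψ ∘ₗ Φ))
    (G : X →ₗ[k] X) (G' : P →ₗ[k] P) (hG : ∀ y, G (Φ y) = Φ (G' y))
    (hZ : ∀ x ∈ Ψ.ker, G x ∈ Ψ.ker) :
    trace k X G = trace k P G' + trace k Ψ.ker (G.restrict hZ) := by
  let M : P ≃ₗ[k] P := LinearEquiv.ofInjectiveEndo (Ψ ∘ₗ Φ) hinj
  have hM : ∀ y, M y = Ψ (Φ y) := fun y => rfl
  let π : X →ₗ[k] X := Φ ∘ₗ (M.symm.toLinearMap ∘ₗ Ψ)
  have hπ : ∀ x, π x = Φ (M.symm (Ψ x)) := fun _ => rfl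
  have h1 : trace k X (G ∘ₗ π) = trace k P G' := by
    have e1 : G ∘ₗ π = Φ ∘ₗ (G' ∘ₗ (M.symm.toLinearMap ∘ₗ Ψ)) := by
      ext x
      exact hG _
    rw [e1, trace_comp_comm']
    congr 1
    ext y
    show G' (M.symm (Ψ (Φ y))) = G' y
    rw [← hM, LinearEquiv.symm_apply_apply]
  have hmem : ∀ x, (G ∘ₗ (LinearMap.id - π)) x ∈ Ψ.ker := by
    intro x
    apply hZ
    rw [LinearMap.mem_ker, LinearMap.sub_apply, LinearMap.id_apply, map_sub, hπ, ← hM,
      LinearEquiv.apply_symm_apply, sub_self]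
  have h2 : trace k X (G ∘ₗ (LinearMap.id - π)) = trace k Ψ.ker (G.restrict hZ) := by
    rw [← trace_restrict_eq_of_forall_mem Ψ.ker (G ∘ₗ (LinearMap.id - π)) hmem]
    congr 1
    ext x
    show G ((x : X) - π x) = G x
    have h3 : Ψ (x : X) = 0 := x.2
    rw [hπ, h3, map_zero, map_zero, sub_zero]
  have h3 : G = G ∘ₗ π + G ∘ₗ (LinearMap.id - π) := by
    ext x
    simp
  conv_lhs => rw [h3, map_add, h1, h2]

end general

section step

variable {k : Type*} [Field k] [CharZero k] {X Y : Type*} [AddCommGroup X] [Module k X]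
  [FiniteDimensional k X] [AddCommGroup Y] [Module k Y] [FiniteDimensional k Y]

omit [FiniteDimensional k Y] in
lemma trace_swap (F : Y →ₗ[k] Y) : trace k (Y × Y)
    ((F ∘ₗ LinearMap.snd k Y Y).prod (F ∘ₗ LinearMap.fst k Y Y)) = 0 := by
  let C : (Y × Y) ≃ₗ[k] (Y × Y) := (LinearEquiv.refl k Y).prodCongr (LinearEquiv.neg k)
  have h1 := trace_conj' ((F ∘ₗ LinearMap.snd k Y Y).prod (F ∘ₗ LinearMap.fst k Y Y)) C
  have h2 : C.conj ((F ∘ₗ LinearMap.snd k Y Y).prod (F ∘ₗ LinearMap.fst k Y Y)) =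
      -((F ∘ₗ LinearMap.snd k Y Y).prod (F ∘ₗ LinearMap.fst k Y Y)) := by
    ext y
    · simp [C, LinearEquiv.conj_apply]
    · simp [C, LinearEquiv.conj_apply]
    · simp [C, LinearEquiv.conj_apply]
    · simp [C, LinearEquiv.conj_apply]
  rw [h2, map_neg] at h1
  have h3 : (2 : k) * trace k (Y × Y)
      ((F ∘ₗ LinearMap.snd k Y Y).prod (F ∘ₗ LinearMap.fst k Y Y)) = 0 := by
    rw [two_mul]
    nth_rewrite 1 [← h1]
    exact neg_add_cancel _
  exact (mul_eq_zero.1 h3).resolve_left two_ne_zero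

variable (I : Y →ₗ[k] X) (J : X →ₗ[k] Y) (w F : X →ₗ[k] X) (F' : Y →ₗ[k] Y) (α : k)
  (hww : ∀ x, w (w x) = x) (hwF : ∀ x, w (F x) = F (w x)) (hJF : ∀ x, J (F x) = F' (J x))
  (hIF : ∀ y, F (I y) = I (F' y)) (hJI : ∀ y, J (I y) = α • y)
  (hT : ∀ y, J (w (I (J (w (I y))))) = (α ^ 2) • y → y = 0)

/-- the map `(y, z) ↦ I y + w I z` -/
def Phi : Y × Y →ₗ[k] X := I.coprod (w ∘ₗ I)

/-- the map `x ↦ (J x, J w x)` -/
def Psi : X →ₗ[k] Y × Y := J.prod (J ∘ₗ w)

omit [CharZero k] [FiniteDimensional k X] [FiniteDimensional k Y] in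
lemma mem_ker_Psi (x : X) : x ∈ (Psi J w).ker ↔ J x = 0 ∧ J (w x) = 0 := by
  rw [LinearMap.mem_ker]
  exact Prod.ext_iff

omit [CharZero k] [FiniteDimensional k X] [FiniteDimensional k Y] in
include hww hJI hT in
lemma inj_PsiPhi : Function.Injective (Psi J w ∘ₗ Phi I w) := by
  rw [← LinearMap.ker_eq_bot, LinearMap.ker_eq_bot']
  rintro ⟨y, z⟩ h
  have h1 : J (I y + w (I z)) = 0 := congrArg Prod.fst h
  have h2 : J (w (I y + w (I z))) = 0 := congrArg Prod.snd h
  rw [map_add, hJI] at h1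
  rw [map_add, hww, map_add, hJI] at h2
  have h3 : J (w (I z)) = -(α • y) := by rw [eq_neg_iff_add_eq_zero, add_comm]; exact h1
  have h4 : J (w (I y)) = -(α • z) := by rw [eq_neg_iff_add_eq_zero]; exact h2
  have hz : z = 0 := by
    apply hT
    rw [h3, map_neg, map_neg, map_neg, map_smul, map_smul, map_smul, h4, smul_neg, neg_neg,
      smul_smul, pow_two]
  have hy : y = 0 := by
    apply hT
    rw [h4, map_neg, map_neg, map_neg, map_smul, map_smul, map_smul, h3, smul_neg, neg_neg,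
      smul_smul, pow_two]
  rw [hz, hy]
  rfl

omit [CharZero k] [FiniteDimensional k X] [FiniteDimensional k Y] in
include hwF hJF in
lemma F_ker (x : X) (hx : x ∈ (Psi J w).ker) : F x ∈ (Psi J w).ker := by
  rw [mem_ker_Psi] at hx ⊢
  rw [hJF, hwF, hJF, hx.1, hx.2, map_zero]
  exact ⟨rfl, rfl⟩

omit [CharZero k] [FiniteDimensional k X] [FiniteDimensional k Y] in
include hww in
lemma w_ker (x : X) (hx : x ∈ (Psi J w).ker) : w x ∈ (Psi J w).ker := by
  rw [mem_ker_Psi] at hx ⊢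
  rw [hww]
  exact ⟨hx.2, hx.1⟩

omit [CharZero k] [FiniteDimensional k X] [FiniteDimensional k Y] in
include hww hwF hJF in
lemma wF_ker (x : X) (hx : x ∈ (Psi J w).ker) : (w ∘ₗ F) x ∈ (Psi J w).ker :=
  w_ker J w hww _ (F_ker J w F F' hwF hJF x hx)

omit [CharZero k] in
include hww hwF hIF hJI hT in
lemma trace_F (hZ : ∀ x ∈ (Psi J w).ker, F x ∈ (Psi J w).ker) :
    trace k X F = 2 * trace k Y F' + trace k (Psi J w).ker (F.restrict hZ) := by
  rw [trace_split (Phi I w) (Psi J w) (inj_PsiPhi I J w α hww hJI hT) F (F'.prodMap F')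
    (fun y => ?_) hZ, trace_prodMap']
  · ring
  · show F (I y.1 + w (I y.2)) = I (F' y.1) + w (I (F' y.2))
    rw [map_add, hIF, ← hwF, hIF]

include hww hwF hIF hJI hT in
lemma trace_wF (hZ : ∀ x ∈ (Psi J w).ker, (w ∘ₗ F) x ∈ (Psi J w).ker) :
    trace k X (w ∘ₗ F) = trace k (Psi J w).ker ((w ∘ₗ F).restrict hZ) := by
  rw [trace_split (Phi I w) (Psi J w) (inj_PsiPhi I J w α hww hJI hT) (w ∘ₗ F)
    ((F' ∘ₗ LinearMap.snd k Y Y).prod (F' ∘ₗ LinearMap.fst k Y Y)) (fun y => ?_) hZ, trace_swap,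
    zero_add]
  show w (F (I y.1 + w (I y.2))) = I (F' y.2) + w (I (F' y.1))
  rw [map_add, map_add, hIF, ← hwF, hww, hIF, add_comm]

omit [FiniteDimensional k Y] in
/-- trace on the `(-1)`-eigenspace of an involution -/
lemma trace_minus (hww : ∀ x, w (w x) = x) (hwF : ∀ x, w (F x) = F (w x)) (Zm : Submodule k X)
    (hZm : ∀ x, x ∈ Zm ↔ w x = -x) (hF : ∀ x ∈ Zm, F x ∈ Zm) :
    trace k Zm (F.restrict hF) = (1 / 2 : k) * (trace k X F - trace k X (w ∘ₗ F)) := by
  let π : X →ₗ[k] X := (1 / 2 : k) • (LinearMap.id - w)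
  have hπ : ∀ x, π x = (1 / 2 : k) • (x - w x) := fun _ => rfl
  have hmem : ∀ x, (F ∘ₗ π) x ∈ Zm := by
    intro x
    apply hF
    rw [hZm, hπ, map_smul, map_sub, hww, ← smul_neg, neg_sub]
  have h1 : trace k Zm (F.restrict hF) = trace k X (F ∘ₗ π) := by
    rw [← trace_restrict_eq_of_forall_mem Zm (F ∘ₗ π) hmem]
    congr 1
    ext x
    show F x = F (π x)
    have h2 : w (x : X) = -x := (hZm _).1 x.2
    have h3 : π (x : X) = x := by
      rw [hπ, h2, sub_neg_eq_add, ← two_smul k, smul_smul]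
      norm_num
    rw [h3]
  have h2 : F ∘ₗ π = (1 / 2 : k) • (F - w ∘ₗ F) := by
    ext x
    show F ((1 / 2 : k) • (x - w x)) = (1 / 2 : k) • (F x - w (F x))
    rw [map_smul, map_sub, hwF]
  rw [h1, h2, map_smul, map_sub, smul_eq_mul]

include hww hwF hJF hIF hJI hT in
/-- **step 1** -/
theorem step_minus (Zm : Submodule k X) (hZm : ∀ x, x ∈ Zm ↔ J x = 0 ∧ w x = -x)
    (hF : ∀ x ∈ Zm, F x ∈ Zm) :
    trace k Zm (F.restrict hF) = (1 / 2 : k) * (trace k X F - trace k X (w ∘ₗ F)) -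
      trace k Y F' := by
  have hZ := F_ker J w F F' hwF hJF
  have hZ' := wF_ker J w F F' hww hwF hJF
  have hw := w_ker J w hww
  rw [trace_F I J w F F' α hww hwF hIF hJI hT hZ, trace_wF I J w F F' α hww hwF hIF hJI hT hZ']
  -- the minus part of the kernel
  let q : Submodule k (Psi J w).ker :=
    { carrier := {x | w (x : X) = -x}
      add_mem' := fun {a b} ha hb => by
        show w ((a : X) + b) = -((a : X) + b)
        have ha' : w (a : X) = -a := ha
        have hb' : w (b : X) = -b := hb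
        rw [map_add, ha', hb', neg_add]
      zero_mem' := by
        show w (0 : X) = -0
        rw [map_zero, neg_zero]
      smul_mem' := fun c {a} ha => by
        show w (c • (a : X)) = -(c • (a : X))
        have ha' : w (a : X) = -a := ha
        rw [map_smul, ha', smul_neg] }
  have hqF : ∀ x ∈ q, (F.restrict hZ) x ∈ q := by
    intro x hx
    show w (F (x : X)) = -F (x : X)
    have hx' : w (x : X) = -x := hx
    rw [hwF, hx', map_neg]
  have h1 := trace_minus (X := (Psi J w).ker) (w.restrict hw) (F.restrict hZ)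
    (fun x => Subtype.ext (hww x)) (fun x => Subtype.ext (hwF x)) q
    (fun x => ⟨fun h => Subtype.ext h, fun h => congrArg Subtype.val h⟩) hqF
  have h2 := trace_nested (Psi J w).ker q Zm (fun x => by
    rw [hZm]
    constructor
    · rintro ⟨h3, h4⟩
      refine ⟨(mem_ker_Psi J w x).2 ⟨h3, ?_⟩, h4⟩
      rw [h4, map_neg, h3, neg_zero]
    · rintro ⟨h3, h4⟩
      exact ⟨((mem_ker_Psi J w x).1 h3).1, h4⟩) F hZ hqF hF
  rw [← h2, h1]
  have h3 : (w.restrict hw) ∘ₗ (F.restrict hZ) = (w ∘ₗ F).restrict hZ' := rfl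
  rw [h3]
  ring

include hww hwF hJF hIF hJI hT in
/-- **step 2** -/
theorem step_new (Z : Submodule k X) (hZm : ∀ x, x ∈ Z ↔ J x = 0 ∧ J (w x) = 0)
    (hF : ∀ x ∈ Z, (w ∘ₗ F) x ∈ Z) :
    trace k Z ((w ∘ₗ F).restrict hF) = trace k X (w ∘ₗ F) := by
  have hZ' := wF_ker J w F F' hww hwF hJF
  rw [trace_wF I J w F F' α hww hwF hIF hJI hT hZ']
  obtain rfl : Z = (Psi J w).ker := by
    ext x
    rw [hZm, mem_ker_Psi]
  rfl

omit [FiniteDimensional k Y] in
/-- the trace of an involution is bounded by the dimension -/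
theorem abs_trace_le (hww : ∀ x, w (w x) = x) (t : ℤ) (ht : trace k X w = (t : k)) :
    |t| ≤ finrank k X := by
  let π : X →ₗ[k] X := (1 / 2 : k) • (LinearMap.id + w)
  have hπ : ∀ x, π x = (1 / 2 : k) • (x + w x) := fun _ => rfl
  let p : Submodule k X := LinearMap.ker (w - LinearMap.id)
  have hp : ∀ x, x ∈ p ↔ w x = x := by
    intro x
    rw [LinearMap.mem_ker, LinearMap.sub_apply, LinearMap.id_apply, sub_eq_zero]
  have hproj : IsProj p π := by
    constructor
    · intro x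
      rw [hp, hπ, map_smul, map_add, hww, add_comm]
    · intro x hx
      rw [hp] at hx
      rw [hπ, hx, ← two_smul k, smul_smul]
      norm_num
  have h1 := hproj.trace
  have h2 : trace k X π = (1 / 2 : k) * ((finrank k X : k) + t) := by
    show trace k X ((1 / 2 : k) • (LinearMap.id + w)) = _
    rw [map_smul, map_add, ht, smul_eq_mul, trace_id]
  rw [h2] at h1
  have h3 : ((finrank k X : ℤ) + t) = 2 * (finrank k p : ℤ) := by
    have h4 : (((finrank k X : ℤ) + t : ℤ) : k) = ((2 * (finrank k p : ℤ) : ℤ) : k) := by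
      push_cast
      rw [← h1]
      ring
    exact_mod_cast h4
  have h5 : finrank k p ≤ finrank k X := Submodule.finrank_le p
  rw [abs_le]
  constructor <;> omega

end step

end Fermat.Agent.ZRec
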